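import Mathlib.RingTheory.IntegralClosure.IntegrallyClosed
import Mathlib.RingTheory.Localization.Away.Basic
import Mathlib.RingTheory.Localization.FractionRing
import Mathlib.RingTheory.Ideal.Quotient.Operations
import Mathlib.RingTheory.Nilpotent.Defs
import Mathlib.Tactic.LinearCombination
import Mathlib.Tactic.Ring

/-!
# A2, piece M3 (abstract core): normality from a reduced fibre

`R` a domain, `π ∈ R`, `R ⧸ (π)` reduced.  If every element of `Frac R` that is integral over `R`
lies in `R[1/π]` (e.g. if `R[1/π]` is integrally closed), then `R` is integrally closed.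

Application (cell A2, (M3) of `origin/helper348:coord/A2-nodes-helper348.md`): `B' = B ⊗ O'` is
normal as soon as its generic fibre is normal and its special fibre `B'/π'` is reduced.

Mathlib only.
-/

set_option autoImplicit false
set_option linter.unusedSectionVars false

namespace Fermat.Agent.A2.H296

variable {R : Type*} [CommRing R] [IsDomain R]

/-- If `R ⧸ (π)` is reduced and `y ^ n ∈ (π)` with `n ≠ 0`, then `y ∈ (π)`. -/
theorem mem_span_of_pow_mem {π : R} (hred : IsReduced (R ⧸ Ideal.span {π})) {y : R} {n : ℕ}
    (h : y ^ n ∈ Ideal.span {π}) : y ∈ Ideal.span {π} := by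
  rw [← Ideal.Quotient.eq_zero_iff_mem] at h ⊢
  rw [map_pow] at h
  exact (IsReduced.eq_zero _ ⟨n, h⟩)

/-- **Core of (M3).**  `K` a fraction field of the domain `R`, `π ≠ 0`, `R ⧸ (π)` reduced.  An
element `x : K` integral over `R` with `x * π ^ k ∈ R` for some `k` already lies in `R`. -/
theorem mem_of_isIntegral_of_mul_pow_mem {K : Type*} [Field K] [Algebra R K] [IsFractionRing R K]
    {π : R} (hπ : π ≠ 0) (hred : IsReduced (R ⧸ Ideal.span {π})) {x : K}
    (hx : IsIntegral R x) :
    ∀ (k : ℕ) (y : R), algebraMap R K y = x * (algebraMap R K π) ^ k →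
      ∃ z : R, algebraMap R K z = x := by
  have hπK : algebraMap R K π ≠ 0 := by
    rwa [Ne, map_eq_zero_iff _ (IsFractionRing.injective R K)]
  intro k
  induction k with
  | zero =>
    intro y hy
    exact ⟨y, by simpa using hy⟩
  | succ k ih =>
    intro y hy
    -- it suffices to show `π ∣ y`
    suffices hdvd : y ∈ Ideal.span {π} by
      obtain ⟨y', hy'⟩ := Ideal.mem_span_singleton'.mp hdvd
      refine ih y' ?_
      have h1 : algebraMap R K y' * algebraMap R K π = x * algebraMap R K π ^ k *
          algebraMap R K π := by
        rw [← map_mul, hy', hy, pow_succ, mul_assoc]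
      exact mul_right_cancel₀ hπK h1
    obtain ⟨p, hp, hpx⟩ := hx
    -- `y` is a root of the scaled polynomial
    set n := p.natDegree with hn
    by_cases hn0 : n = 0
    · -- `p = 1`, impossible
      have : p = 1 := by
        have := Polynomial.eq_C_of_natDegree_eq_zero (hn0 ▸ hn.symm ▸ rfl : p.natDegree = 0)
        rw [this]
        have hl : p.leadingCoeff = 1 := hp
        rw [Polynomial.leadingCoeff, ← hn, hn0] at hl
        rw [hl, Polynomial.C_1]
      rw [this] at hpx
      simp at hpx
    apply mem_span_of_pow_mem hred (n := n)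
    -- expand `p(x) = 0`
    have hsum : (algebraMap R K y) ^ n =
        - ∑ i ∈ Finset.range n, algebraMap R K (p.coeff i) * (algebraMap R K y) ^ i *
          (algebraMap R K π) ^ ((k + 1) * (n - i)) := by
      have h1 : Polynomial.eval₂ (algebraMap R K) x p = 0 := hpx
      rw [Polynomial.eval₂_eq_sum_range, ← hn, Finset.sum_range_succ] at h1
      have hlead : p.coeff n = 1 := hp
      rw [hlead, map_one, one_mul] at h1
      have h2 : x ^ n = - ∑ i ∈ Finset.range n, algebraMap R K (p.coeff i) * x ^ i := by
        linear_combination h1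
      rw [hy, mul_pow, h2, neg_mul, Finset.sum_mul]
      congr 1
      refine Finset.sum_congr rfl fun i hi => ?_
      have hi' : i < n := Finset.mem_range.mp hi
      rw [mul_pow, ← pow_mul, ← pow_mul]
      have : (k + 1) * n = (k + 1) * i + (k + 1) * (n - i) := by
        rw [← Nat.mul_add]; congr 1; omega
      rw [this, pow_add]
      ring
    -- transport to `R`
    have hR : y ^ n = - ∑ i ∈ Finset.range n, p.coeff i * y ^ i * π ^ ((k + 1) * (n - i)) := by
      apply IsFractionRing.injective R K
      rw [map_pow, hsum, map_neg, map_sum]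
      congr 1
      refine Finset.sum_congr rfl fun i _ => ?_
      rw [map_mul, map_mul, map_pow, map_pow]
    rw [hR]
    refine (Ideal.span {π}).neg_mem ((Ideal.span {π}).sum_mem fun i hi => ?_)
    have hi' : i < n := Finset.mem_range.mp hi
    have hpos : (k + 1) * (n - i) ≠ 0 := Nat.mul_ne_zero (Nat.succ_ne_zero k) (by omega)
    obtain ⟨e, he⟩ := Nat.exists_eq_succ_of_ne_zero hpos
    rw [he, pow_succ, ← mul_assoc]
    exact Ideal.mul_mem_left _ _ (Ideal.subset_span rfl)

/-- **(M3), abstract form.**  A domain `R` with `R ⧸ (π)` reduced, such that every element of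
the fraction field integral over `R` has a `π`-power multiple in `R`, is integrally closed. -/
theorem isIntegrallyClosed_of_reduced_fibre (K : Type*) [Field K] [Algebra R K]
    [IsFractionRing R K] {π : R} (hπ : π ≠ 0) (hred : IsReduced (R ⧸ Ideal.span {π}))
    (hloc : ∀ x : K, IsIntegral R x →
      ∃ (k : ℕ) (y : R), algebraMap R K y = x * (algebraMap R K π) ^ k) :
    IsIntegrallyClosed R := by
  rw [isIntegrallyClosed_iff K]
  intro x hx
  obtain ⟨k, y, hy⟩ := hloc x hx
  exact mem_of_isIntegral_of_mul_pow_mem hπ hred hx k y hy

/-- **(M3) with a localisation.**  If `R ⧸ (π)` is reduced and `R[1/π]` is integrally closed,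
then `R` is integrally closed. -/
theorem isIntegrallyClosed_of_reduced_fibre_of_away {π : R} (hπ : π ≠ 0)
    (hred : IsReduced (R ⧸ Ideal.span {π})) (S : Type*) [CommRing S] [Algebra R S]
    [IsLocalization.Away π S] [IsDomain S] (hS : IsIntegrallyClosed S) :
    IsIntegrallyClosed R := by
  have hπK : IsUnit (algebraMap R (FractionRing R) π) := by
    apply IsUnit.mk0
    rwa [Ne, map_eq_zero_iff _ (IsFractionRing.injective R (FractionRing R))]
  let _ : Algebra S (FractionRing R) :=
    (IsLocalization.Away.lift (S := S) π (g := algebraMap R (FractionRing R)) hπK).toAlgebra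
  have : IsScalarTower R S (FractionRing R) :=
    IsScalarTower.of_algebraMap_eq fun r => by
      change _ = IsLocalization.Away.lift (S := S) π hπK (algebraMap R S r)
      rw [IsLocalization.Away.lift_eq]
  have : IsFractionRing S (FractionRing R) :=
    IsFractionRing.isFractionRing_of_isDomain_of_isLocalization (Submonoid.powers π) S
      (FractionRing R)
  refine isIntegrallyClosed_of_reduced_fibre (FractionRing R) hπ hred fun x hx => ?_
  have hxS : IsIntegral S x := hx.tower_top
  obtain ⟨s, hs⟩ := (isIntegrallyClosed_iff (FractionRing R)).mp hS hxS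
  obtain ⟨k, y, hy⟩ := IsLocalization.Away.surj π s
  refine ⟨k, y, ?_⟩
  rw [← hs, IsScalarTower.algebraMap_apply R S (FractionRing R) y, ← hy, map_mul, map_pow,
    ← IsScalarTower.algebraMap_apply R S (FractionRing R) π]

end Fermat.Agent.A2.H296
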